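import Mathlib

/-!
# S57 helper: depth ≤ dim A/𝔭 for associated primes (elementary version)
-/

open RingTheory.Sequence IsLocalRing Pointwise

namespace FA_S57

universe u v

/-- If `𝔭 < P` are primes then `dim A/P + 1 ≤ dim A/𝔭`. -/
theorem FA_S57_dim_quot_succ_le {A : Type u} [CommRing A] (𝔭 P : Ideal A) [𝔭.IsPrime]
    (hle : 𝔭 ≤ P) {s : A} (hsP : s ∈ P) (hs𝔭 : s ∉ 𝔭) :
    ringKrullDim (A ⧸ P) + 1 ≤ ringKrullDim (A ⧸ 𝔭) := by
  refine ringKrullDim_succ_le_of_surjective (Ideal.Quotient.factor hle)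
    (Ideal.Quotient.factor_surjective hle) (r := Ideal.Quotient.mk 𝔭 s) ?_ ?_
  · rw [mem_nonZeroDivisors_iff_ne_zero]
    intro h
    exact hs𝔭 (Ideal.Quotient.eq_zero_iff_mem.mp h)
  · rw [Ideal.Quotient.factor_mk]
    exact Ideal.Quotient.eq_zero_iff_mem.mpr hsP

/-- Lemma D: if `rs` is a weakly regular sequence on `N` inside the maximal ideal and the prime
`𝔭` kills a nonzero element of `N`, then `rs.length ≤ dim A/𝔭`. -/
theorem FA_S57_length_le_dim_quot {A : Type u} [CommRing A] [IsNoetherianRing A] [IsLocalRing A]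
    (rs : List A) : ∀ {N : Type v} [AddCommGroup N] [Module A N] [Module.Finite A N]
    (_hreg : IsWeaklyRegular N rs) (_hmem : ∀ r ∈ rs, r ∈ maximalIdeal A)
    (𝔭 : Ideal A) [𝔭.IsPrime] (x : N) (_hx : x ≠ 0) (_hpx : ∀ a ∈ 𝔭, a • x = 0),
    (rs.length : WithBot ℕ∞) ≤ ringKrullDim (A ⧸ 𝔭) := by
  induction rs with
  | nil =>
    intro N _ _ _ _ _ 𝔭 _ x _ _
    simpa using ringKrullDim_nonneg_of_nontrivial
  | cons s rs ih =>
    intro N _ _ _ hreg hmem 𝔭 _ x hx hpx
    obtain ⟨hs, hrs⟩ := (isWeaklyRegular_cons_iff N s rs).mp hreg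
    have hsm : s ∈ maximalIdeal A := hmem s List.mem_cons_self
    have hs𝔭 : s ∉ 𝔭 := fun h => hx (hs (by simpa using hpx s h))
    -- the submodule killed by 𝔭
    let K : Submodule A N := Submodule.torsionBySet A N (𝔭 : Set A)
    have hxK : x ∈ K := (Submodule.mem_torsionBySet_iff _ _).mpr fun a => hpx a a.2
    have hK : K ≠ ⊥ := fun h => hx (by simpa [h] using hxK)
    have : IsNoetherian A N := isNoetherian_of_isNoetherianRing_of_finite A N
    have hKfg : K.FG := IsNoetherian.noetherian K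
    have hnot : ¬ K ≤ (Ideal.span {s}) • K := fun hle =>
      hK (Submodule.eq_bot_of_le_smul_of_le_jacobson_bot (Ideal.span {s}) K hKfg hle
        (by
          rw [Ideal.span_singleton_le_iff_mem]
          exact (IsLocalRing.jacobson_eq_maximalIdeal (⊥ : Ideal A) bot_ne_top).symm ▸ hsm))
    obtain ⟨y, hyK, hy⟩ := Set.not_subset.mp hnot
    have hyN : y ∉ (s • (⊤ : Submodule A N)) := by
      intro hmem'
      obtain ⟨z, -, rfl⟩ := (Submodule.mem_smul_pointwise_iff_exists _ _ _).mp hmem'
      apply hy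
      have hzK : z ∈ K := by
        refine (Submodule.mem_torsionBySet_iff _ _).mpr fun a => ?_
        have h1 : (a : A) • s • z = 0 := (Submodule.mem_torsionBySet_iff _ _).mp hyK a
        rw [smul_comm] at h1
        exact hs (by simpa using h1)
      rw [Submodule.ideal_span_singleton_smul]
      exact Submodule.smul_mem_pointwise_smul z s K hzK
    -- the image of y in N/sN
    let ybar : QuotSMulTop s N := Submodule.Quotient.mk y
    have hybar : ybar ≠ 0 := fun h => hyN ((Submodule.Quotient.mk_eq_zero _).mp h)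
    obtain ⟨P, hP, hPle⟩ := exists_le_isAssociatedPrime_of_isNoetherianRing A ybar hybar
    have : P.IsPrime := hP.isPrime
    obtain ⟨-, z, hz⟩ := isAssociatedPrime_iff.mp hP
    have hsy : s • ybar = 0 := by
      show Submodule.Quotient.mk (s • y) = 0
      rw [Submodule.Quotient.mk_eq_zero]
      exact Submodule.smul_mem_pointwise_smul y s ⊤ Submodule.mem_top
    have h𝔭P : 𝔭 ≤ P := fun a ha => hPle (by
      rw [Submodule.mem_colon_singleton]
      show a • ybar ∈ (⊥ : Submodule A _)
      rw [Submodule.mem_bot]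
      show Submodule.Quotient.mk (a • y) = 0
      rw [(Submodule.mem_torsionBySet_iff _ _).mp hyK ⟨a, ha⟩]
      rfl)
    have hsP : s ∈ P := hPle (by
      rw [Submodule.mem_colon_singleton]
      show s • ybar ∈ (⊥ : Submodule A _)
      rw [Submodule.mem_bot]; exact hsy)
    have hzP : ∀ a ∈ P, a • z = 0 := by
      intro a ha
      rw [hz, Submodule.mem_colon_singleton, Submodule.mem_bot] at ha
      exact ha
    have hz0 : z ≠ 0 := by
      rintro rfl
      apply hP.isPrime.ne_top
      rw [hz]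
      ext a
      simp [Submodule.mem_colon_singleton]
    have hmem' : ∀ r ∈ rs, r ∈ maximalIdeal A := fun r hr => hmem r (List.mem_cons_of_mem _ hr)
    have h1 := ih hrs hmem' P z hz0 hzP
    have h2 := FA_S57_dim_quot_succ_le 𝔭 P h𝔭P hsP hs𝔭
    calc ((s :: rs).length : WithBot ℕ∞) = (rs.length : WithBot ℕ∞) + 1 := by
          simp
      _ ≤ ringKrullDim (A ⧸ P) + 1 := by gcongr
      _ ≤ _ := h2

end FA_S57
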