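import Mathlib
import Fermat.Agent.S57.LemmaD

/-!
# S57 helper: generators of the maximal ideal are regular on a maximal Cohen–Macaulay module
-/

open RingTheory.Sequence IsLocalRing Pointwise

namespace FA_S57

universe u v

theorem FA_S57_spanFinrank_ofList_le {A : Type u} [CommRing A] (l : List A) :
    (Ideal.ofList l).spanFinrank ≤ l.length := by
  classical
  have hfin : ({r | r ∈ l} : Set A).Finite := List.finite_toSet l
  refine le_trans (Submodule.spanFinrank_span_le_ncard_of_finite hfin) ?_
  have : ({r | r ∈ l} : Set A) = ↑l.toFinset := by ext; simp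
  rw [this, Set.ncard_coe_finset]
  exact List.toFinset_card_le l

/-- Krull's height theorem in the form we need. -/
theorem FA_S57_dim_quot_le {A : Type u} [CommRing A] [IsNoetherianRing A] [IsLocalRing A]
    (P : Ideal A) [P.IsPrime] (ys : List A) (hys : ∀ r ∈ ys, r ∈ maximalIdeal A)
    (hgen : maximalIdeal A ≤ P ⊔ Ideal.ofList ys) :
    ringKrullDim (A ⧸ P) ≤ (ys.length : WithBot ℕ∞) := by
  have hP : P ≠ ⊤ := Ideal.IsPrime.ne_top'
  have : Nontrivial (A ⧸ P) := Ideal.Quotient.nontrivial_iff.mpr hP
  have := IsLocalRing.of_surjective' (Ideal.Quotient.mk P) Ideal.Quotient.mk_surjective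
  have := IsLocalHom.of_surjective (Ideal.Quotient.mk P) Ideal.Quotient.mk_surjective
  have hmax : (maximalIdeal A).map (Ideal.Quotient.mk P) = maximalIdeal (A ⧸ P) := by
    ext x
    obtain ⟨x, rfl⟩ := Ideal.Quotient.mk_surjective x
    simp [sup_eq_left.mpr (le_maximalIdeal hP)]
  have hle : Ideal.ofList ys ≤ maximalIdeal A := Ideal.span_le.mpr fun r hr => hys r hr
  have heq : maximalIdeal (A ⧸ P) = Ideal.ofList (ys.map (Ideal.Quotient.mk P)) := by
    rw [← Ideal.map_ofList, ← hmax]
    apply le_antisymm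
    · refine (Ideal.map_mono hgen).trans ?_
      rw [Ideal.map_sup, Ideal.map_quotient_self, bot_sup_eq]
    · exact Ideal.map_mono hle
  refine (ringKrullDim_le_spanFinrank_maximalIdeal (A ⧸ P)).trans ?_
  rw [heq]
  have := FA_S57_spanFinrank_ofList_le (ys.map (Ideal.Quotient.mk P))
  rw [List.length_map] at this
  exact_mod_cast this

/-- Key step: if the maximal ideal is generated (modulo an ideal `J` killing `N`) by `y :: ys`
and `N` carries a weakly regular sequence longer than `ys`, then `y` is `N`-regular. -/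
theorem FA_S57_isSMulRegular_of_gen {A : Type u} [CommRing A] [IsNoetherianRing A] [IsLocalRing A]
    {N : Type v} [AddCommGroup N] [Module A N] [Module.Finite A N]
    (J : Ideal A) (hJ : ∀ a ∈ J, ∀ x : N, a • x = 0)
    (y : A) (ys : List A) (hys : ∀ r ∈ ys, r ∈ maximalIdeal A)
    (hgen : maximalIdeal A ≤ J ⊔ Ideal.ofList (y :: ys))
    (rs : List A) (hreg : IsWeaklyRegular N rs) (hmem : ∀ r ∈ rs, r ∈ maximalIdeal A)
    (hlen : ys.length < rs.length) :
    IsSMulRegular N y := by
  rw [isSMulRegular_iff_right_eq_zero_of_smul]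
  intro x hx
  by_contra hx0
  obtain ⟨P, hP, hPle⟩ := exists_le_isAssociatedPrime_of_isNoetherianRing A x hx0
  have : P.IsPrime := hP.isPrime
  obtain ⟨-, z, hz⟩ := isAssociatedPrime_iff.mp hP
  have hzP : ∀ a ∈ P, a • z = 0 := by
    intro a ha
    rw [hz, Submodule.mem_colon_singleton, Submodule.mem_bot] at ha
    exact ha
  have hz0 : z ≠ 0 := by
    rintro rfl
    apply hP.isPrime.ne_top
    rw [hz]
    ext a
    simp [Submodule.mem_colon_singleton]
  have hyP : y ∈ P := hPle (by
    rw [Submodule.mem_colon_singleton, Submodule.mem_bot]; exact hx)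
  have hJP : J ≤ P := fun a ha => by
    rw [hz, Submodule.mem_colon_singleton, Submodule.mem_bot]
    exact hJ a ha z
  have hgen' : maximalIdeal A ≤ P ⊔ Ideal.ofList ys := by
    refine hgen.trans ?_
    rw [Ideal.ofList_cons]
    refine sup_le (hJP.trans le_sup_left) (sup_le ?_ le_sup_right)
    rw [Ideal.span_singleton_le_iff_mem]
    exact Ideal.mem_sup_left hyP
  have h1 := FA_S57_length_le_dim_quot rs hreg hmem P z hz0 hzP
  have h2 := FA_S57_dim_quot_le P ys hys hgen'
  have h3 : (rs.length : WithBot ℕ∞) ≤ (ys.length : WithBot ℕ∞) := h1.trans h2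
  have h4 : rs.length ≤ ys.length := by exact_mod_cast h3
  omega

end FA_S57
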