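import Mathlib

/-!
# S57 helper: depth drops by one modulo a regular element (via Mathlib's Rees theorem)
-/

open RingTheory.Sequence IsLocalRing Pointwise CategoryTheory Abelian

namespace FA_S57

universe u v

theorem FA_S57_smul_top_lt_top {A : Type u} [CommRing A] [IsLocalRing A]
    (N : Type v) [AddCommGroup N] [Module A N] [Module.Finite A N] [Nontrivial N] :
    (maximalIdeal A) • (⊤ : Submodule A N) < ⊤ := by
  rw [lt_top_iff_ne_top]
  intro h
  have hbot : (⊤ : Submodule A N) = ⊥ :=
    Submodule.eq_bot_of_le_smul_of_le_jacobson_bot (maximalIdeal A) ⊤ Module.Finite.fg_top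
      h.ge (IsLocalRing.jacobson_eq_maximalIdeal (⊥ : Ideal A) bot_ne_top).ge
  exact top_ne_bot hbot

theorem FA_S57_rees_step {A : Type u} [CommRing A] [IsNoetherianRing A] [IsLocalRing A]
    [Small.{v} A]
    (N : Type v) [AddCommGroup N] [Module A N] [Module.Finite A N]
    (rs : List A) (hreg : IsRegular N rs) (hmem : ∀ r ∈ rs, r ∈ maximalIdeal A)
    (y : A) (hy : y ∈ maximalIdeal A) (hyreg : IsSMulRegular N y)
    (n : ℕ) (hn : rs.length = n + 1) :
    ∃ rs' : List A, rs'.length = n ∧ (∀ r ∈ rs', r ∈ maximalIdeal A) ∧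
      IsRegular (QuotSMulTop y N) rs' := by
  have hNt : Nontrivial N := hreg.nontrivial
  have hN't : Nontrivial (QuotSMulTop y N) := nontrivial_quotSMulTop_of_mem_maximalIdeal N hy
  let M : ModuleCat.{v} A := ModuleCat.of A N
  let M' : ModuleCat.{v} A := ModuleCat.of A (QuotSMulTop y N)
  have : Module.Finite A M := inferInstanceAs (Module.Finite A N)
  have : Module.Finite A M' := inferInstanceAs (Module.Finite A (QuotSMulTop y N))
  have smul_lt : (maximalIdeal A) • (⊤ : Submodule A M) < ⊤ := FA_S57_smul_top_lt_top N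
  have smul_lt' : (maximalIdeal A) • (⊤ : Submodule A M') < ⊤ :=
    FA_S57_smul_top_lt_top (QuotSMulTop y N)
  have tfae1 := ModuleCat.exists_isRegular_tfae (maximalIdeal A) (n + 1) M smul_lt
  have tfae2 := ModuleCat.exists_isRegular_tfae (maximalIdeal A) n M' smul_lt'
  have h41 := tfae1.out 3 1
  have h13 := tfae2.out 1 3
  have h_ext := h41.mp ⟨rs, hn, hmem, hreg⟩
  refine h13.mp ?_
  intro i hi
  have zero1 := AddCommGrpCat.isZero_of_iff_subsingleton.mpr (h_ext i (by omega))
  have zero2 := AddCommGrpCat.isZero_of_iff_subsingleton.mpr (h_ext (i + 1) (by omega))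
  have hyreg' : IsSMulRegular M y := hyreg
  exact AddCommGrpCat.subsingleton_of_isZero <| ShortComplex.Exact.isZero_of_both_zeros
    ((Ext.covariant_sequence_exact₃' _ hyreg'.smulShortComplex_shortExact) i (i + 1) rfl)
    (zero1.eq_zero_of_src _) (zero2.eq_zero_of_tgt _)

end FA_S57
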