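import Mathlib
import Fermat.Agent.S57.LemmaD
import Fermat.Agent.S57.KeyStep
import Fermat.Agent.S57.ReesStep

/-!
# S57 helper: a finitely generated module of maximal depth over a regular local ring is free
-/

open RingTheory.Sequence IsLocalRing Pointwise

namespace FA_S57

universe u v

/-- Lemma E': generators of the maximal ideal (modulo an ideal killing `N`) form a weakly
regular sequence on `N` as soon as `N` carries some regular sequence of the same length. -/
theorem FA_S57_gens_isWeaklyRegular_of_depth {A : Type u} [CommRing A] [IsNoetherianRing A]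
    [IsLocalRing A] [Small.{v} A] (ys : List A) :
    ∀ (N : Type v) [AddCommGroup N] [Module A N] [Module.Finite A N]
      (J : Ideal A) (_hJ : ∀ a ∈ J, ∀ x : N, a • x = 0)
      (_hys : ∀ r ∈ ys, r ∈ maximalIdeal A)
      (_hgen : maximalIdeal A ≤ J ⊔ Ideal.ofList ys)
      (rs : List A) (_hreg : IsRegular N rs) (_hmem : ∀ r ∈ rs, r ∈ maximalIdeal A)
      (_hlen : rs.length = ys.length), IsWeaklyRegular N ys := by
  induction ys with
  | nil =>
    intro N _ _ _ J _ _ _ rs _ _ _
    exact (isWeaklyRegular_iff N []).mpr (by simp)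
  | cons y ys ih =>
    intro N _ _ _ J hJ hys hgen rs hreg hmem hlen
    have hy : y ∈ maximalIdeal A := hys y List.mem_cons_self
    have hys' : ∀ r ∈ ys, r ∈ maximalIdeal A := fun r hr => hys r (List.mem_cons_of_mem _ hr)
    have hlen' : rs.length = ys.length + 1 := by simpa using hlen
    have hyreg : IsSMulRegular N y :=
      FA_S57_isSMulRegular_of_gen J hJ y ys hys' hgen rs hreg.toIsWeaklyRegular hmem (by omega)
    obtain ⟨rs', hl', hm', hr'⟩ := FA_S57_rees_step N rs hreg hmem y hy hyreg ys.length hlen'
    refine (isWeaklyRegular_cons_iff N y ys).mpr ⟨hyreg, ?_⟩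
    refine ih (QuotSMulTop y N) (J ⊔ Ideal.span {y}) ?_ hys' ?_ rs' hr' hm' hl'
    · intro a ha x
      obtain ⟨x, rfl⟩ := Submodule.Quotient.mk_surjective _ x
      obtain ⟨b, hb, c, hc, rfl⟩ := Submodule.mem_sup.mp ha
      obtain ⟨d, rfl⟩ := Ideal.mem_span_singleton'.mp hc
      rw [← Submodule.Quotient.mk_smul, Submodule.Quotient.mk_eq_zero, add_smul, hJ b hb x,
        zero_add, mul_comm, mul_smul]
      exact Submodule.smul_mem_pointwise_smul _ y ⊤ Submodule.mem_top
    · refine hgen.trans ?_
      rw [Ideal.ofList_cons, sup_assoc]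

/-- Lemma F: if generators of the maximal ideal form a weakly regular sequence on the finite
module `N`, then `N` is free. -/
theorem FA_S57_free_of_gens_isWeaklyRegular (n : ℕ) :
    ∀ (A : Type u) [CommRing A] [IsNoetherianRing A] [IsLocalRing A]
      (N : Type v) [AddCommGroup N] [Module A N] [Module.Finite A N]
      (ys : List A) (_hn : ys.length = n) (_hys : ∀ r ∈ ys, r ∈ maximalIdeal A)
      (_hgen : maximalIdeal A ≤ Ideal.ofList ys)
      (_hreg : IsWeaklyRegular N ys), Module.Free A N := by
  induction n with
  | zero =>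
    intro A _ _ _ N _ _ _ ys hn _ hgen _
    obtain rfl : ys = [] := List.length_eq_zero_iff.mp hn
    have hbot : maximalIdeal A = ⊥ := by
      rw [eq_bot_iff]
      refine hgen.trans ?_
      simp
    have hfield : IsField A := IsLocalRing.isField_iff_maximalIdeal_eq.mpr hbot
    let _ := hfield.toField
    exact Module.Free.of_divisionRing A N
  | succ n ih =>
    intro A _ _ _ N _ _ _ ys hn hys hgen hreg
    match ys, hn with
    | y :: ys, hn =>
      have hy : y ∈ maximalIdeal A := hys y List.mem_cons_self
      obtain ⟨hyreg, hrest⟩ := (isWeaklyRegular_cons_iff' N y ys).mp hreg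
      have hne : Ideal.span {y} ≠ ⊤ := fun h =>
        (Ideal.IsMaximal.ne_top (maximalIdeal.isMaximal A))
          (top_le_iff.mp (h ▸ (Ideal.span_singleton_le_iff_mem _).mpr hy))
      have : Nontrivial (A ⧸ Ideal.span {y}) := Ideal.Quotient.nontrivial_iff.mpr hne
      have := IsLocalRing.of_surjective' (Ideal.Quotient.mk (Ideal.span {y}))
        Ideal.Quotient.mk_surjective
      have := IsLocalHom.of_surjective (Ideal.Quotient.mk (Ideal.span {y}))
        Ideal.Quotient.mk_surjective
      have hmax : (maximalIdeal A).map (Ideal.Quotient.mk (Ideal.span {y})) =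
          maximalIdeal (A ⧸ Ideal.span {y}) := by
        ext x
        obtain ⟨x, rfl⟩ := Ideal.Quotient.mk_surjective x
        simp [sup_eq_left.mpr (le_maximalIdeal hne)]
      have : Module.Finite (A ⧸ Ideal.span {y}) (QuotSMulTop y N) :=
        Module.Finite.of_restrictScalars_finite A (A ⧸ Ideal.span {y}) (QuotSMulTop y N)
      have hfree : Module.Free (A ⧸ Ideal.span {y}) (QuotSMulTop y N) := by
        refine ih (A ⧸ Ideal.span {y}) (QuotSMulTop y N)
          (ys.map (Ideal.Quotient.mk (Ideal.span {y}))) ?_ ?_ ?_ hrest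
        · simpa using hn
        · intro r hr
          obtain ⟨r', hr', rfl⟩ := List.mem_map.mp hr
          rw [← hmax]
          exact Ideal.mem_map_of_mem _ (hys r' (List.mem_cons_of_mem _ hr'))
        · rw [← hmax, ← Ideal.map_ofList]
          refine (Ideal.map_mono hgen).trans ?_
          rw [Ideal.ofList_cons, Ideal.map_sup, Ideal.map_quotient_self, bot_sup_eq]
      have : Module.FinitePresentation A N := Module.finitePresentation_of_finite A N
      exact (Module.free_quotSMulTop_iff_free A N
        ((IsLocalRing.jacobson_eq_maximalIdeal (⊥ : Ideal A) bot_ne_top).symm ▸ hy) hyreg).mp hfree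

/-- Theorem G: over a Noetherian local ring whose maximal ideal is generated by `ys`, a finite
module carrying a regular sequence of length `ys.length` is free. -/
theorem FA_S57_free_of_depth {A : Type u} [CommRing A] [IsNoetherianRing A]
    [IsLocalRing A] [Small.{v} A]
    (N : Type v) [AddCommGroup N] [Module A N] [Module.Finite A N]
    (ys : List A) (hys : ∀ r ∈ ys, r ∈ maximalIdeal A)
    (hgen : maximalIdeal A ≤ Ideal.ofList ys)
    (rs : List A) (hreg : IsRegular N rs) (hmem : ∀ r ∈ rs, r ∈ maximalIdeal A)
    (hlen : rs.length = ys.length) : Module.Free A N := by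
  have h1 : IsWeaklyRegular N ys :=
    FA_S57_gens_isWeaklyRegular_of_depth ys N ⊥ (by simp) hys (by simpa using hgen) rs hreg hmem hlen
  exact FA_S57_free_of_gens_isWeaklyRegular ys.length A N ys rfl hys hgen h1

end FA_S57
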