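import Mathlib

/-!
# S57 helper: `[X 0, …, X (r-1), C ϖ]` is a regular sequence generating the maximal ideal of
`𝒪⟦X₁,…,X_r⟧`
-/

open RingTheory.Sequence MvPowerSeries

namespace FA_S57

/-- the list `[X 0, …, X (r-1), C ϖ]` -/
noncomputable def FA_S57_gens (𝒪 : Type) [CommRing 𝒪] (r : ℕ) (ϖ : 𝒪) :
    List (MvPowerSeries (Fin r) 𝒪) :=
  (List.ofFn fun i : Fin r => (MvPowerSeries.X i : MvPowerSeries (Fin r) 𝒪)) ++ [MvPowerSeries.C ϖ]

/-- series all of whose monomials involve one of the first `i` variables -/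
def FA_S57_J (𝒪 : Type) [CommRing 𝒪] (r i : ℕ) : Ideal (MvPowerSeries (Fin r) 𝒪) where
  carrier := {f | ∀ m : Fin r →₀ ℕ, (∀ j : Fin r, j.val < i → m j = 0) → coeff m f = 0}
  zero_mem' := by intro m _; simp
  add_mem' := by
    intro f g hf hg m hm
    rw [map_add, hf m hm, hg m hm, add_zero]
  smul_mem' := by
    classical
    intro g f hf m hm
    rw [smul_eq_mul, coeff_mul]
    refine Finset.sum_eq_zero fun ab hab => ?_
    have hsum : ab.1 + ab.2 = m := Finset.HasAntidiagonal.mem_antidiagonal.mp hab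
    have h2 : ∀ j : Fin r, j.val < i → ab.2 j = 0 := by
      intro j hj
      have h3 := hm j hj
      rw [← hsum, Finsupp.add_apply] at h3
      omega
    rw [hf ab.2 h2, mul_zero]

theorem FA_S57_mem_J {𝒪 : Type} [CommRing 𝒪] {r i : ℕ} {f : MvPowerSeries (Fin r) 𝒪} :
    f ∈ FA_S57_J 𝒪 r i ↔
      ∀ m : Fin r →₀ ℕ, (∀ j : Fin r, j.val < i → m j = 0) → coeff m f = 0 := Iff.rfl

theorem FA_S57_X_mem_J {𝒪 : Type} [CommRing 𝒪] {r i : ℕ} (j : Fin r) (hj : j.val < i) :
    (X j : MvPowerSeries (Fin r) 𝒪) ∈ FA_S57_J 𝒪 r i := by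
  classical
  intro m hm
  rw [coeff_X, if_neg]
  intro h
  have := hm j hj
  rw [h] at this
  simp at this

/-- Lemma V: the ideal generated by the first `i` variables. -/
theorem FA_S57_span_eq_J (𝒪 : Type) [CommRing 𝒪] (r i : ℕ) (hi : i ≤ r) :
    Ideal.span {f : MvPowerSeries (Fin r) 𝒪 | ∃ j : Fin r, j.val < i ∧ f = X j} =
      FA_S57_J 𝒪 r i := by
  classical
  apply le_antisymm
  · rw [Ideal.span_le]
    rintro _ ⟨j, hj, rfl⟩
    exact FA_S57_X_mem_J j hj
  · induction i with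
    | zero =>
      intro f hf
      have : f = 0 := by
        ext m
        simpa using hf m (fun j hj => absurd hj (Nat.not_lt_zero _))
      rw [this]
      exact Ideal.zero_mem _
    | succ i ih =>
      intro f hf
      have hir : i < r := hi
      let ι : Fin r := ⟨i, hir⟩
      let h : MvPowerSeries (Fin r) 𝒪 := fun m => if m ι = 0 then coeff m f else 0
      have hcoeff : ∀ m, coeff m h = if m ι = 0 then coeff m f else 0 := fun m => rfl
      have h1 : h ∈ FA_S57_J 𝒪 r i := by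
        intro m hm
        rw [hcoeff]
        split_ifs with h0
        · refine hf m fun j hj => ?_
          rcases Nat.lt_succ_iff_lt_or_eq.mp hj with h' | h'
          · exact hm j h'
          · have : j = ι := Fin.ext h'
            rw [this]; exact h0
        · rfl
      have h2 : X ι ∣ f - h := by
        rw [X_dvd_iff]
        intro m hm
        rw [map_sub, hcoeff, if_pos hm, sub_self]
      have h3 : f = h + (f - h) := by ring
      rw [h3]
      refine Ideal.add_mem _ ?_ ?_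
      · refine Ideal.span_mono ?_ (ih (Nat.le_of_succ_le hi) h1)
        rintro _ ⟨j, hj, rfl⟩
        exact ⟨j, Nat.lt_succ_of_lt hj, rfl⟩
      · obtain ⟨g, hg⟩ := h2
        rw [hg]
        exact Ideal.mul_mem_right _ _ (Ideal.subset_span ⟨ι, Nat.lt_succ_self i, rfl⟩)

theorem FA_S57_ofList_take {𝒪 : Type} [CommRing 𝒪] (r i : ℕ) (hi : i ≤ r) :
    Ideal.ofList ((List.ofFn fun j : Fin r => (X j : MvPowerSeries (Fin r) 𝒪)).take i) =
      FA_S57_J 𝒪 r i := by
  rw [← FA_S57_span_eq_J 𝒪 r i hi]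
  have hset : {f : MvPowerSeries (Fin r) 𝒪 |
      f ∈ (List.ofFn fun j : Fin r => (X j : MvPowerSeries (Fin r) 𝒪)).take i} =
      {f : MvPowerSeries (Fin r) 𝒪 | ∃ j : Fin r, j.val < i ∧ f = X j} := by
    ext f
    show f ∈ (List.ofFn fun j : Fin r => (X j : MvPowerSeries (Fin r) 𝒪)).take i ↔
      ∃ j : Fin r, j.val < i ∧ f = X j
    simp only [List.mem_take_iff_getElem, List.length_ofFn, List.getElem_ofFn]
    constructor
    · rintro ⟨j, hj, rfl⟩
      have hj' : j < i ∧ j < r := by simpa using hj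
      exact ⟨⟨j, hj'.2⟩, hj'.1, rfl⟩
    · rintro ⟨j, hj, rfl⟩
      exact ⟨j.val, lt_min hj j.isLt, rfl⟩
  exact congrArg Ideal.span hset

theorem FA_S57_ofList_ofFn {𝒪 : Type} [CommRing 𝒪] (r : ℕ) :
    Ideal.ofList (List.ofFn fun j : Fin r => (X j : MvPowerSeries (Fin r) 𝒪)) =
      FA_S57_J 𝒪 r r := by
  have := FA_S57_ofList_take (𝒪 := 𝒪) r r le_rfl
  rwa [List.take_of_length_le (by simp)] at this

theorem FA_S57_mem_J_top {𝒪 : Type} [CommRing 𝒪] {r : ℕ} {f : MvPowerSeries (Fin r) 𝒪} :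
    f ∈ FA_S57_J 𝒪 r r ↔ constantCoeff f = 0 := by
  rw [FA_S57_mem_J]
  constructor
  · intro h
    rw [← coeff_zero_eq_constantCoeff]
    exact h 0 (fun j _ => rfl)
  · intro h m hm
    have : m = 0 := by
      ext j
      exact hm j j.isLt
    rw [this, coeff_zero_eq_constantCoeff]
    exact h

theorem FA_S57_ofFn_isWeaklyRegular {𝒪 : Type} [CommRing 𝒪] (r : ℕ) :
    IsWeaklyRegular (MvPowerSeries (Fin r) 𝒪)
      (List.ofFn fun j : Fin r => (X j : MvPowerSeries (Fin r) 𝒪)) := by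
  classical
  rw [isWeaklyRegular_iff]
  intro i hi
  have hir : i < r := by simpa using hi
  rw [isSMulRegular_quotient_iff_mem_of_smul_mem]
  have hI : (Ideal.ofList ((List.ofFn fun j : Fin r => (X j : MvPowerSeries (Fin r) 𝒪)).take i) •
      (⊤ : Submodule (MvPowerSeries (Fin r) 𝒪) (MvPowerSeries (Fin r) 𝒪))) =
      FA_S57_J 𝒪 r i := by
    rw [FA_S57_ofList_take r i hir.le]
    simp
  rw [hI]
  intro f hf m hm
  rw [List.getElem_ofFn, smul_eq_mul] at hf
  have h1 := hf ((fun₀ | (⟨i, hir⟩ : Fin r) => 1) + m) (by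
    intro j hj
    rw [Finsupp.add_apply, hm j hj, add_zero, Finsupp.single_apply, if_neg]
    intro h
    rw [← h] at hj
    exact lt_irrefl _ hj)
  rw [X_def, coeff_add_monomial_mul, one_mul] at h1
  exact h1

theorem FA_S57_gens_isWeaklyRegular {𝒪 : Type} [CommRing 𝒪] [IsDomain 𝒪] (r : ℕ) (ϖ : 𝒪)
    (hϖ : ϖ ≠ 0) :
    IsWeaklyRegular (MvPowerSeries (Fin r) 𝒪) (FA_S57_gens 𝒪 r ϖ) := by
  rw [FA_S57_gens, isWeaklyRegular_append_iff]
  refine ⟨FA_S57_ofFn_isWeaklyRegular r, ?_⟩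
  rw [isWeaklyRegular_singleton_iff, isSMulRegular_quotient_iff_mem_of_smul_mem]
  have hI : (Ideal.ofList (List.ofFn fun j : Fin r => (X j : MvPowerSeries (Fin r) 𝒪)) •
      (⊤ : Submodule (MvPowerSeries (Fin r) 𝒪) (MvPowerSeries (Fin r) 𝒪))) =
      FA_S57_J 𝒪 r r := by
    rw [FA_S57_ofList_ofFn r]
    simp
  rw [hI]
  intro f hf
  rw [FA_S57_mem_J_top] at hf ⊢
  rw [smul_eq_mul, map_mul, constantCoeff_C] at hf
  exact (mul_eq_zero.mp hf).resolve_left hϖ

theorem FA_S57_maximalIdeal_eq {𝒪 : Type} [CommRing 𝒪] [IsDomain 𝒪] [IsDiscreteValuationRing 𝒪]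
    (r : ℕ) (ϖ : 𝒪) (hϖ : Irreducible ϖ) :
    IsLocalRing.maximalIdeal (MvPowerSeries (Fin r) 𝒪) = Ideal.ofList (FA_S57_gens 𝒪 r ϖ) := by
  rw [FA_S57_gens, Ideal.ofList_append, FA_S57_ofList_ofFn, Ideal.ofList_singleton]
  have hmem : ∀ f : MvPowerSeries (Fin r) 𝒪,
      f ∈ IsLocalRing.maximalIdeal (MvPowerSeries (Fin r) 𝒪) ↔
        constantCoeff f ∈ Ideal.span {ϖ} := by
    intro f
    rw [IsLocalRing.mem_maximalIdeal, mem_nonunits_iff, isUnit_iff_constantCoeff,
      ← hϖ.maximalIdeal_eq, IsLocalRing.mem_maximalIdeal, mem_nonunits_iff]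
  apply le_antisymm
  · intro f hf
    obtain ⟨a, ha⟩ := Ideal.mem_span_singleton'.mp ((hmem f).mp hf)
    have h3 : f = (f - C (a * ϖ)) + C a * C ϖ := by
      rw [map_mul]; ring
    rw [h3]
    refine Ideal.add_mem _ (Ideal.mem_sup_left ?_) (Ideal.mem_sup_right ?_)
    · rw [FA_S57_mem_J_top, map_sub, constantCoeff_C, ha, sub_self]
    · exact Ideal.mul_mem_left _ _ (Ideal.subset_span rfl)
  · refine sup_le ?_ ?_
    · intro f hf
      rw [hmem, FA_S57_mem_J_top.mp hf]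
      exact Ideal.zero_mem _
    · rw [Ideal.span_singleton_le_iff_mem, hmem, constantCoeff_C]
      exact Ideal.subset_span rfl

end FA_S57
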