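import Mathlib
import Fermat.Prelude.Def_Algebra_PatchingDatum
import Fermat.Agent.S57.FreeOfDepth
import Fermat.Agent.S57.PowerSeriesGens

/-!
# S57: glue
-/

open RingTheory.Sequence IsLocalRing Pointwise

namespace FA_S57

variable {𝒪 : Type} [CommRing 𝒪] {r : ℕ} {R : Type} [CommRing R] [Algebra 𝒪 R]
  {M : Type} [AddCommGroup M] [Module R M]

/-- The module `L.N` with scalar action twisted by `L.φ`. -/
structure FA_S57_Nφ (L : Algebra.PatchingLevel 𝒪 r R M ⊥) : Type where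
  /-- underlying element -/
  val : L.N

/-- the tautological bijection -/
def FA_S57_Nφ_equiv (L : Algebra.PatchingLevel 𝒪 r R M ⊥) : FA_S57_Nφ L ≃ L.N where
  toFun := FA_S57_Nφ.val
  invFun := FA_S57_Nφ.mk
  left_inv _ := rfl
  right_inv _ := rfl

noncomputable instance FA_S57_Nφ_addCommGroup (L : Algebra.PatchingLevel 𝒪 r R M ⊥) :
    AddCommGroup (FA_S57_Nφ L) :=
  (FA_S57_Nφ_equiv L).addCommGroup

noncomputable instance FA_S57_Nφ_module (L : Algebra.PatchingLevel 𝒪 r R M ⊥) :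
    Module (MvPowerSeries (Fin r) 𝒪) (FA_S57_Nφ L) :=
  letI : Module (MvPowerSeries (Fin r) 𝒪) L.N :=
    Module.compHom L.N (L.φ : MvPowerSeries (Fin r) 𝒪 →+* MvPowerSeries (Fin r) 𝒪)
  (FA_S57_Nφ_equiv L).module (MvPowerSeries (Fin r) 𝒪)

/-- the tautological additive bijection -/
noncomputable def FA_S57_Nφ_addEquiv (L : Algebra.PatchingLevel 𝒪 r R M ⊥) :
    FA_S57_Nφ L ≃+ L.N :=
  (FA_S57_Nφ_equiv L).addEquiv

theorem FA_S57_Nφ_addEquiv_smul (L : Algebra.PatchingLevel 𝒪 r R M ⊥)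
    (c : MvPowerSeries (Fin r) 𝒪) (x : FA_S57_Nφ L) :
    FA_S57_Nφ_addEquiv L (c • x) = L.φ c • FA_S57_Nφ_addEquiv L x := rfl

theorem FA_S57_Nφ_addEquiv_symm_smul (L : Algebra.PatchingLevel 𝒪 r R M ⊥)
    (c : MvPowerSeries (Fin r) 𝒪) (x : L.N) :
    (FA_S57_Nφ_addEquiv L).symm (L.φ c • x) = c • (FA_S57_Nφ_addEquiv L).symm x := rfl

/-- `L.N` is free over `Λ` via `φ`. -/
noncomputable def FA_S57_Nφ_basis (L : Algebra.PatchingLevel 𝒪 r R M ⊥) :
    Module.Basis (Fin L.d) (MvPowerSeries (Fin r) 𝒪) (FA_S57_Nφ L) :=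
  Module.Basis.mk (v := fun i => (FA_S57_Nφ_addEquiv L).symm (L.b i))
    (by
      rw [Fintype.linearIndependent_iff]
      intro g hg i
      have h1 : ∑ i, L.φ (g i) • L.b i = 0 := by
        have := congrArg (FA_S57_Nφ_addEquiv L) hg
        simpa [map_sum, FA_S57_Nφ_addEquiv_smul] using this
      have := (L.b_rel g).mp h1 i
      simpa using this)
    (by
      intro x _
      obtain ⟨c, hc⟩ := L.b_span (FA_S57_Nφ_addEquiv L x)
      have hx : x = ∑ i, c i • (FA_S57_Nφ_addEquiv L).symm (L.b i) := by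
        apply (FA_S57_Nφ_addEquiv L).injective
        rw [hc]
        simp [map_sum, FA_S57_Nφ_addEquiv_smul]
      rw [hx]
      exact Submodule.sum_mem _ fun i _ =>
        Submodule.smul_mem _ (c i) (Submodule.subset_span ⟨i, rfl⟩))

theorem FA_S57_Nφ_isWeaklyRegular (L : Algebra.PatchingLevel 𝒪 r R M ⊥)
    (rs : List (MvPowerSeries (Fin r) 𝒪))
    (h : IsWeaklyRegular (MvPowerSeries (Fin r) 𝒪) rs) :
    IsWeaklyRegular L.N (rs.map L.φ) := by
  have hfree : Module.Free (MvPowerSeries (Fin r) 𝒪) (FA_S57_Nφ L) :=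
    Module.Free.of_basis (FA_S57_Nφ_basis L)
  have h1 : IsWeaklyRegular
      (TensorProduct (MvPowerSeries (Fin r) 𝒪) (FA_S57_Nφ L) (MvPowerSeries (Fin r) 𝒪)) rs :=
    h.isWeaklyRegular_lTensor
  have h2 : IsWeaklyRegular (FA_S57_Nφ L) rs :=
    (LinearEquiv.isWeaklyRegular_congr (TensorProduct.rid _ (FA_S57_Nφ L)) rs).mp h1
  refine (AddEquiv.isWeaklyRegular_congr (e := FA_S57_Nφ_addEquiv L)
    (as := rs) (bs := rs.map L.φ) ?_).mp h2
  exact List.forall₂_map_right_iff.mpr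
    (List.forall₂_same.mpr fun c _ x => FA_S57_Nφ_addEquiv_smul L c x)

end FA_S57
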