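import Mathlib
import Fermat.Prelude.Def_Algebra_PatchingDatum
import Fermat.Agent.S57.FreeOfDepth
import Fermat.Agent.S57.PowerSeriesGens
import Fermat.Agent.S57.Glue

/-!
# S57: main theorem
-/

open RingTheory.Sequence IsLocalRing Pointwise

namespace FA_S57

theorem FA_S57_main {𝒪 : Type} [CommRing 𝒪] [IsDomain 𝒪] [IsDiscreteValuationRing 𝒪]
    {r : ℕ} {R : Type} [CommRing R] [Algebra 𝒪 R]
    {M : Type} [AddCommGroup M] [Module R M] [Nontrivial M]
    (L : Algebra.PatchingLevel 𝒪 r R M ⊥) :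
    Module.Free R M ∧ Module.annihilator R M = ⊥ ∧
      RingHom.ker L.ψ = Ideal.span (Set.range fun i : Fin r => L.φ (MvPowerSeries.X i)) := by
  obtain ⟨ϖ, hϖ⟩ := IsDiscreteValuationRing.exists_irreducible 𝒪
  -- `N` is finite and nontrivial
  have hNfin : Module.Finite (MvPowerSeries (Fin r) 𝒪) L.N := by
    refine ⟨(Submodule.fg_def).mpr ⟨Set.range L.b, Set.finite_range _, ?_⟩⟩
    rw [eq_top_iff]
    intro x _
    obtain ⟨c, hc⟩ := L.b_span x
    rw [hc]
    exact Submodule.sum_mem _ fun i _ =>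
      Submodule.smul_mem _ _ (Submodule.subset_span ⟨i, rfl⟩)
  have hNnt : Nontrivial L.N := L.π_surjective.nontrivial
  have hRnt : Nontrivial R := Module.nontrivial R M
  have hker : RingHom.ker (L.ψ : MvPowerSeries (Fin r) 𝒪 →+* R) ≠ ⊤ := RingHom.ker_ne_top _
  -- generators and the regular sequence
  have hgens_reg := FA_S57_gens_isWeaklyRegular r ϖ hϖ.ne_zero
  have hmax := FA_S57_maximalIdeal_eq r ϖ hϖ
  have hgens_mem : ∀ g ∈ FA_S57_gens 𝒪 r ϖ, g ∈ maximalIdeal (MvPowerSeries (Fin r) 𝒪) := by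
    rw [hmax]
    intro g hg
    exact Ideal.subset_span hg
  have hrs_weak : IsWeaklyRegular L.N ((FA_S57_gens 𝒪 r ϖ).map L.φ) :=
    FA_S57_Nφ_isWeaklyRegular L _ hgens_reg
  have hrs_mem : ∀ s ∈ (FA_S57_gens 𝒪 r ϖ).map L.φ,
      s ∈ maximalIdeal (MvPowerSeries (Fin r) 𝒪) := by
    intro s hs
    obtain ⟨g, hg, rfl⟩ := List.mem_map.mp hs
    rcases List.mem_append.mp hg with h | h
    · obtain ⟨i, rfl⟩ := (List.mem_ofFn' _ _).mp h
      exact IsLocalRing.le_maximalIdeal hker (L.ψ_φ_X i)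
    · obtain rfl : g = MvPowerSeries.C ϖ := by simpa using h
      have h1 : L.φ (MvPowerSeries.C ϖ) = MvPowerSeries.C ϖ := L.φ.commutes ϖ
      rw [h1]
      exact hgens_mem _ hg
  have hrs_reg : IsRegular L.N ((FA_S57_gens 𝒪 r ϖ).map L.φ) :=
    IsRegular.of_isWeaklyRegular_of_mem_maximalIdeal L.N hrs_mem hrs_weak
  have hfree : Module.Free (MvPowerSeries (Fin r) 𝒪) L.N :=
    FA_S57_free_of_depth L.N (FA_S57_gens 𝒪 r ϖ) hgens_mem hmax.le _ hrs_reg hrs_mem
      (List.length_map _)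
  -- conclusions
  let e := Module.Free.chooseBasis (MvPowerSeries (Fin r) 𝒪) L.N
  have hι : Nonempty (Module.Free.ChooseBasisIndex (MvPowerSeries (Fin r) 𝒪) L.N) :=
    e.index_nonempty
  have hIker : Ideal.span (Set.range fun i : Fin r => L.φ (MvPowerSeries.X i)) ≤
      RingHom.ker (L.ψ : MvPowerSeries (Fin r) 𝒪 →+* R) :=
    Ideal.span_le.mpr (by rintro _ ⟨i, rfl⟩; exact L.ψ_φ_X i)
  have hcoord : ∀ x ∈ (Ideal.span (Set.range fun i : Fin r => L.φ (MvPowerSeries.X i))) •
      (⊤ : Submodule (MvPowerSeries (Fin r) 𝒪) L.N), ∀ j,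
      e.repr x j ∈ Ideal.span (Set.range fun i : Fin r => L.φ (MvPowerSeries.X i)) := by
    intro x hx j
    refine Submodule.smul_induction_on hx ?_ ?_
    · intro a ha n _
      rw [map_smul, Finsupp.smul_apply, smul_eq_mul]
      exact Ideal.mul_mem_right _ _ ha
    · intro x y hx hy
      rw [map_add, Finsupp.add_apply]
      exact Ideal.add_mem _ hx hy
  have hπ_lin : ∀ (s : Finset (Module.Free.ChooseBasisIndex (MvPowerSeries (Fin r) 𝒪) L.N))
      (f : Module.Free.ChooseBasisIndex (MvPowerSeries (Fin r) 𝒪) L.N → MvPowerSeries (Fin r) 𝒪),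
      L.π (∑ i ∈ s, f i • e i) = ∑ i ∈ s, L.ψ (f i) • L.π (e i) := by
    intro s f
    rw [map_sum]
    exact Finset.sum_congr rfl fun i _ => L.π_smul _ _
  have hkerI : RingHom.ker L.ψ =
      Ideal.span (Set.range fun i : Fin r => L.φ (MvPowerSeries.X i)) := by
    refine le_antisymm ?_ hIker
    intro f hf
    obtain ⟨j⟩ := hι
    have hf0 : L.ψ f = 0 := hf
    have h1 : L.π (f • e j) = 0 := by rw [L.π_smul, hf0, zero_smul]
    have h2 := hcoord _ ((L.ker_π _).mp h1) j
    simpa using h2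
  have hli : LinearIndependent R (fun j => L.π (e j)) := by
    rw [linearIndependent_iff']
    intro s g hg i hi
    choose f hf using fun j => L.ψ_surjective (g j)
    have h1 : L.π (∑ j ∈ s, f j • e j) = 0 := by
      rw [hπ_lin]
      simpa [hf] using hg
    have h2 := hcoord _ ((L.ker_π _).mp h1) i
    have h3 : e.repr (∑ j ∈ s, f j • e j) i = f i := by
      classical
      simp [Finsupp.single_apply, hi]
    rw [h3] at h2
    rw [← hf i]
    exact hIker h2
  have hspan : ⊤ ≤ Submodule.span R (Set.range fun j => L.π (e j)) := by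
    intro m _
    obtain ⟨x, rfl⟩ := L.π_surjective m
    rw [← e.linearCombination_repr x, Finsupp.linearCombination_apply, Finsupp.sum, hπ_lin]
    exact Submodule.sum_mem _ fun j _ =>
      Submodule.smul_mem _ _ (Submodule.subset_span ⟨j, rfl⟩)
  have hMfree : Module.Free R M := Module.Free.of_basis (Module.Basis.mk hli hspan)
  exact ⟨hMfree, Module.annihilator_eq_bot.mpr inferInstance, hkerI⟩

end FA_S57
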